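import Fermat.Agent.F4.Glob.Compl.Basic
import Fermat.Agent.MU.F4.Glob.NormDefs
import Fermat.Agent.MU.F4.Glob.Approx

section MergeWrap_F4_Glob_Compl_Quant -- from F4/Glob/Compl/Quant.lean

/-!
# F4 / GLOB / Compl : the completion-model bridge, quantitative form (B1')

`j : F →+* PadicAlgCl q`, `v = primeOf j`, `π ∈ F` a uniformizer at `v`.  Then `‖j π‖ < 1` and

    ‖j x‖ = ‖j π‖ ^ n   when   v x = exp (-n),

hence `‖j x‖ < ‖j π‖ ^ n ↔ v x < exp (-n)`, and `x ∈ U_v^{(k+1)} ↔ ‖j x - 1‖ < ‖j π‖ ^ k`.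
-/

set_option autoImplicit false

open NumberField IsDedekindDomain

namespace Fermat.Agent.F4G

variable {q : ℕ} [Fact q.Prime] {F : Type*} [Field F] [NumberField F] (j : F →+* PadicAlgCl q)

/-- The norm of the image of a uniformizer is `< 1`. -/
lemma norm_unif_lt_one {π : F} (hπ : (primeOf j).valuation F π = WithZero.exp (-1 : ℤ)) :
    ‖j π‖ < 1 := by
  rw [norm_lt_one_iff, hπ, ← WithZero.exp_zero]
  exact WithZero.exp_lt_exp.mpr (by norm_num)

/-- The norm of the image of a uniformizer is positive. -/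
lemma norm_unif_pos {π : F} (hπ : (primeOf j).valuation F π = WithZero.exp (-1 : ℤ)) :
    0 < ‖j π‖ := by
  rw [norm_pos_iff, Ne, map_eq_zero]
  rintro rfl
  rw [map_zero] at hπ
  exact WithZero.exp_ne_zero hπ.symm

/-- **(B1')** `‖j x‖ = ‖j π‖ ^ n` when `v x = exp (-n)`. -/
theorem norm_eq_zpow {π : F} (hπ : (primeOf j).valuation F π = WithZero.exp (-1 : ℤ))
    {x : F} {n : ℤ} (hx : (primeOf j).valuation F x = WithZero.exp (-n)) :
    ‖j x‖ = ‖j π‖ ^ n := by
  have hπ0 : π ≠ 0 := by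
    rintro rfl
    rw [map_zero] at hπ
    exact WithZero.exp_ne_zero hπ.symm
  have hjπ : j π ≠ 0 := (map_ne_zero j).mpr hπ0
  have h1 : (primeOf j).valuation F (x * (π ^ n)⁻¹) = 1 := by
    rw [map_mul, map_inv₀, map_zpow₀, hx, hπ, ← WithZero.exp_zsmul, ← WithZero.exp_neg,
      ← WithZero.exp_add, ← WithZero.exp_zero]
    congr 1
    simp only [smul_eq_mul]
    ring
  have h2 := (norm_eq_one_iff j _).mpr h1
  rw [map_mul, map_inv₀, map_zpow₀, norm_mul, norm_inv, norm_zpow] at h2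
  have h3 : ‖j π‖ ^ n ≠ 0 := zpow_ne_zero _ (norm_ne_zero_iff.mpr hjπ)
  field_simp at h2
  exact h2

/-- **(B1')** `‖j x‖ < ‖j π‖ ^ n ↔ v x < exp (-n)`. -/
theorem norm_lt_zpow_iff {π : F} (hπ : (primeOf j).valuation F π = WithZero.exp (-1 : ℤ))
    (x : F) (n : ℤ) :
    ‖j x‖ < ‖j π‖ ^ n ↔ (primeOf j).valuation F x < WithZero.exp (-n) := by
  have hlt := norm_unif_lt_one j hπ
  have hpos := norm_unif_pos j hπ
  by_cases hx0 : x = 0
  · subst hx0
    rw [map_zero, norm_zero, map_zero]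
    exact ⟨fun _ => WithZero.exp_pos, fun _ => zpow_pos hpos _⟩
  have hvx : (primeOf j).valuation F x ≠ 0 := (Valuation.ne_zero_iff _).mpr hx0
  set m : ℤ := -WithZero.log ((primeOf j).valuation F x) with hm
  have hxm : (primeOf j).valuation F x = WithZero.exp (-m) := by
    rw [hm, neg_neg, WithZero.exp_log hvx]
  rw [norm_eq_zpow j hπ hxm, hxm, WithZero.exp_lt_exp, zpow_lt_zpow_iff_right_of_lt_one₀ hpos hlt]
  constructor <;> intro h <;> omega

/-- **(B1')** `x ∈ U_v^{(k+1)} ↔ ‖j x - 1‖ < ‖j π‖ ^ k`. -/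
theorem mem_oneModSubgroup_iff_norm {π : F}
    (hπ : (primeOf j).valuation F π = WithZero.exp (-1 : ℤ)) (x : Fˣ) (k : ℕ) :
    x ∈ oneModSubgroup F (primeOf j) k ↔ ‖j (x : F) - 1‖ < ‖j π‖ ^ k := by
  rw [mem_oneModSubgroup, ← norm_lt_zpow_iff j hπ, map_sub, map_one, zpow_natCast]

end Fermat.Agent.F4G
end MergeWrap_F4_Glob_Compl_Quant

section MergeWrap_F4_Glob_Compl_Density -- from F4/Glob/Compl/Density.lean

/-!
# F4 / GLOB / Compl / Density : `j(F)` is dense in `ℚ_q(j(F))`  (B2)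

`F` a number field, `j : F →+* PadicAlgCl q`.  Every element of the field generated over `ℚ_q`
by `j(F)` is a limit of elements of `j(F)`.

Proof: the topological closure `R` of the subring `j(F)` contains the image of `ℚ_q`
(`ℚ` is dense in `ℚ_q` and `j` is the identity on `ℚ`), hence the `ℚ_q`-algebra generated by
`j(F)`, which is the field generated by `j(F)` because everything is algebraic over `ℚ_q`.
-/

set_option autoImplicit false

open NumberField

namespace Fermat.Agent.F4G.Compl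

variable {q : ℕ} [Fact q.Prime] {F : Type*} [Field F] [NumberField F] (j : F →+* PadicAlgCl q)

omit [NumberField F] in
/-- membership in the closure of `j(F)` in terms of the norm -/
lemma density_mem_closure_iff (y : PadicAlgCl q) :
    y ∈ j.range.topologicalClosure ↔ ∀ ε : ℝ, 0 < ε → ∃ a : F, ‖y - j a‖ < ε := by
  show y ∈ closure (j.range : Set (PadicAlgCl q)) ↔ _
  rw [Metric.mem_closure_iff]
  constructor
  · intro h ε hε
    obtain ⟨b, ⟨a, rfl⟩, hb⟩ := h ε hε
    exact ⟨a, by rwa [dist_eq_norm] at hb⟩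
  · intro h ε hε
    obtain ⟨a, ha⟩ := h ε hε
    exact ⟨j a, ⟨a, rfl⟩, by rwa [dist_eq_norm]⟩

omit [NumberField F] in
/-- the image of `ℚ_q` lies in the closure of `j(F)` -/
lemma density_algebraMap_mem_closure (x : ℚ_[q]) :
    algebraMap ℚ_[q] (PadicAlgCl q) x ∈ j.range.topologicalClosure := by
  rw [density_mem_closure_iff]
  intro ε hε
  obtain ⟨r, hr⟩ := Padic.rat_dense q x hε
  refine ⟨(r : F), ?_⟩
  have h1 : j (r : F) = algebraMap ℚ_[q] (PadicAlgCl q) (r : ℚ_[q]) := by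
    rw [map_ratCast, map_ratCast]
  rw [h1, ← map_sub, PadicAlgCl.norm_extends]
  exact hr

omit [NumberField F] in
/-- **B2 (density).**  Every element of `ℚ_q(j(F))` is approximated by elements of `j(F)`. -/
theorem exists_approx_of_mem_adjoin {y : PadicAlgCl q}
    (hy : y ∈ IntermediateField.adjoin ℚ_[q] (Set.range j)) {ε : ℝ} (hε : 0 < ε) :
    ∃ a : F, ‖y - j a‖ < ε := by
  have halg : ∀ x ∈ Set.range j, IsAlgebraic ℚ_[q] x := fun x _ =>
    Algebra.IsAlgebraic.isAlgebraic x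
  have h1 : y ∈ Algebra.adjoin ℚ_[q] (Set.range j) := by
    rw [← IntermediateField.adjoin_toSubalgebra_of_isAlgebraic halg]
    exact hy
  -- the closure as a `ℚ_q`-subalgebra
  let R : Subalgebra ℚ_[q] (PadicAlgCl q) :=
    { j.range.topologicalClosure.toSubsemiring with
      algebraMap_mem' := fun x => density_algebraMap_mem_closure j x }
  have h2 : Algebra.adjoin ℚ_[q] (Set.range j) ≤ R := by
    apply Algebra.adjoin_le
    rintro _ ⟨a, rfl⟩
    exact j.range.le_topologicalClosure ⟨a, rfl⟩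
  have h3 : y ∈ j.range.topologicalClosure := h2 h1
  exact (density_mem_closure_iff j y).1 h3 ε hε

end Fermat.Agent.F4G.Compl
end MergeWrap_F4_Glob_Compl_Density

section MergeWrap_F4_Glob_Compl_Bridge -- from F4/Glob/Compl/Bridge.lean

/-!
# F4 / GLOB / Compl : the open–dense bridge (B4, abstract form) and weak approximation

`j : F →+* PadicAlgCl q`, `v = primeOf j`, `F_v = ℚ_q(j(F))` (`complOf j`).

* `exists_unit_approx` : every `y ∈ F_vˣ` is multiplicatively approximated by `j(a)`, `a ∈ Fˣ`;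
* `mem_preimage_iff` : if `G ≤ (PadicAlgCl q)ˣ` contains the `j(a)` with `‖j a - 1‖ < ‖j π‖ ^ k`
  (open) and `j(G₀)` is dense in `G`, then `j a ∈ G ↔ a ∈ G₀ · U_v^{(k+1)}`;
* `exists_simultaneous_approx` : weak approximation for finitely many embeddings
  `j i : F →+* PadicAlgCl (q i)` with pairwise distinct primes `primeOf (j i)`.
-/

set_option autoImplicit false
set_option linter.unusedSectionVars false

open NumberField IsDedekindDomain

namespace Fermat.Agent.F4G

variable {q : ℕ} [Fact q.Prime] {F : Type*} [Field F] [NumberField F] (j : F →+* PadicAlgCl q)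

/-- The completion of `F` at `primeOf j`, inside `PadicAlgCl q`. -/
noncomputable abbrev complOf : IntermediateField ℚ_[q] (PadicAlgCl q) :=
  IntermediateField.adjoin ℚ_[q] (Set.range j)

lemma map_mem_complOf (a : F) : j a ∈ complOf j :=
  IntermediateField.subset_adjoin _ _ ⟨a, rfl⟩

/-- Multiplicative approximation: every nonzero `y ∈ F_v` is `j a · (1 + small)`. -/
theorem exists_unit_approx {y : PadicAlgCl q} (hy : y ∈ complOf j) (hy0 : y ≠ 0) {ε : ℝ}
    (hε : 0 < ε) : ∃ a : Fˣ, ‖y / j (a : F) - 1‖ < ε := by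
  have hyn : 0 < ‖y‖ := norm_pos_iff.mpr hy0
  set δ : ℝ := min (1 / 2) (ε / 2) * ‖y‖ with hδ
  have hδ0 : 0 < δ := by positivity
  obtain ⟨a, ha⟩ := Compl.exists_approx_of_mem_adjoin j hy hδ0
  have h1 : ‖y - j a‖ < 1 / 2 * ‖y‖ :=
    lt_of_lt_of_le ha (mul_le_mul_of_nonneg_right (min_le_left _ _) hyn.le)
  have h2 : ‖y - j a‖ < ε / 2 * ‖y‖ :=
    lt_of_lt_of_le ha (mul_le_mul_of_nonneg_right (min_le_right _ _) hyn.le)
  have h3 : ‖y‖ / 2 < ‖j a‖ := by
    have := norm_sub_norm_le y (j a)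
    linarith
  have hja : j a ≠ 0 := norm_pos_iff.mp (lt_trans (by positivity) h3)
  have ha0 : a ≠ 0 := fun h => hja (by rw [h, map_zero])
  refine ⟨Units.mk0 a ha0, ?_⟩
  rw [Units.val_mk0]
  have e : y / j a - 1 = (y - j a) / j a := by field_simp
  rw [e, norm_div, div_lt_iff₀ (norm_pos_iff.mpr hja)]
  nlinarith

/-- **The open–dense bridge.** -/
theorem mem_preimage_iff {π : F} (hπ : (primeOf j).valuation F π = WithZero.exp (-1 : ℤ))
    (G : Subgroup (PadicAlgCl q)ˣ) (G₀ : Subgroup Fˣ) (k : ℕ)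
    (hopen : ∀ a : Fˣ, ‖j (a : F) - 1‖ < ‖j π‖ ^ k → Units.map (j : F →* PadicAlgCl q) a ∈ G)
    (hG₀ : ∀ g ∈ G₀, Units.map (j : F →* PadicAlgCl q) g ∈ G)
    (hdense : ∀ y ∈ G, ((y : (PadicAlgCl q)ˣ) : PadicAlgCl q) ∈ complOf j → ∀ ε : ℝ, 0 < ε →
      ∃ g ∈ G₀, ‖(y : PadicAlgCl q) / j (g : F) - 1‖ < ε)
    (a : Fˣ) :
    Units.map (j : F →* PadicAlgCl q) a ∈ G ↔ a ∈ G₀ ⊔ oneModSubgroup F (primeOf j) k := by
  have hpos : 0 < ‖j π‖ ^ k := pow_pos (norm_unif_pos j hπ) k
  constructor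
  · intro h
    obtain ⟨g, hg, hlt⟩ := hdense _ h (map_mem_complOf j a) _ hpos
    have hmem : a / g ∈ oneModSubgroup F (primeOf j) k := by
      rw [mem_oneModSubgroup_iff_norm j hπ, Units.val_div_eq_div_val, map_div₀]
      exact hlt
    have e : a = g * (a / g) := by rw [mul_div_cancel]
    rw [e]
    exact Subgroup.mul_mem _ (Subgroup.mem_sup_left hg) (Subgroup.mem_sup_right hmem)
  · intro h
    obtain ⟨g, hg, u, hu, rfl⟩ := Subgroup.mem_sup.mp h
    rw [map_mul]
    exact Subgroup.mul_mem _ (hG₀ g hg) (hopen u ((mem_oneModSubgroup_iff_norm j hπ u k).mp hu))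

end Fermat.Agent.F4G
end MergeWrap_F4_Glob_Compl_Bridge
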